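import Mathlib

/-!
# RIB / Wrap / Choice : the order of choices (block B3 of board #2162), abstract form

`t`, then `n` (from a bound which is uniform over the finitely many `M ∣ N`), then the TW primes `qv`, then
`S := S(qv)`, and ONLY THEN `M ∣ N` minimal with `Occ S M` (board #2094).
-/

set_option autoImplicit false

namespace Fermat.Agent.RIB

/-- a minimal divisor with a given property. -/
theorem choice_exists_minimal_dvd (Q : ℕ → Prop) {N : ℕ} (hQ : Q N) :
    ∃ M, M ∣ N ∧ Q M ∧ ∀ M', M' ∣ M → M' ≠ M → ¬ Q M' := by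
  induction N using Nat.strong_induction_on with
  | _ N ih =>
    by_cases h : ∀ M', M' ∣ N → M' ≠ N → ¬ Q M'
    · exact ⟨N, dvd_rfl, hQ, h⟩
    · push Not at h
      obtain ⟨M', hd, hne, hQ'⟩ := h
      rcases Nat.eq_zero_or_pos N with rfl | hpos
      · -- `N = 0` : use well-foundedness on `M'` directly
        by_cases h0 : ∃ M, M ≠ 0 ∧ Q M
        · classical
          obtain ⟨hM0, hMQ⟩ := Nat.find_spec h0
          refine ⟨Nat.find h0, dvd_zero _, hMQ, fun M'' hd'' hne'' hQ'' => ?_⟩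
          have hM''0 : M'' ≠ 0 := by
            rintro rfl
            exact hM0 (Nat.eq_zero_of_zero_dvd hd'')
          have hle : M'' ≤ Nat.find h0 := Nat.le_of_dvd (Nat.pos_of_ne_zero hM0) hd''
          exact Nat.find_min h0 (lt_of_le_of_ne hle hne'') ⟨hM''0, hQ''⟩
        · exact absurd ⟨M', hne, hQ'⟩ h0
      · have hlt : M' < N := lt_of_le_of_ne (Nat.le_of_dvd hpos hd) hne
        obtain ⟨M, hM, hQM, hmin⟩ := ih M' hlt hQ'
        exact ⟨M, hM.trans hd, hQM, hmin⟩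

/-- a squarefree number without odd prime factor is `1` or `2`. -/
theorem choice_eq_one_or_two {M : ℕ} (hM : Squarefree M)
    (h : ∀ q : ℕ, q.Prime → q ∣ M → q = 2) : M = 1 ∨ M = 2 := by
  by_cases h1 : M = 1
  · exact Or.inl h1
  · right
    have h2 : 2 ∣ M := by
      obtain ⟨q, hq, hqM⟩ := Nat.exists_prime_and_dvd h1
      rw [← h q hq hqM]
      exact hqM
    obtain ⟨c, rfl⟩ := h2
    have hc : c = 1 := by
      by_contra hc
      obtain ⟨q, hq, hqc⟩ := Nat.exists_prime_and_dvd hc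
      have hq2 : q = 2 := h q hq (hqc.mul_left 2)
      subst hq2
      have : 2 * 2 ∣ 2 * c := Nat.mul_dvd_mul_left 2 hqc
      exact absurd (hM 2 this) (by decide)
    rw [hc]

/-- **the order of choices**, abstract form. -/
theorem choice_false {N : ℕ} (hN : Squarefree N)
    (Good : (t : ℕ) → ℕ → (Fin t → Nat.Primes) → Prop)
    (hTW : ∃ t : ℕ, ∀ n : ℕ, ∃ qv : Fin t → Nat.Primes, Good t n qv)
    (Occ : (t : ℕ) → (Fin t → Nat.Primes) → ℕ → Prop)
    (hocc : ∀ (t : ℕ) (qv : Fin t → Nat.Primes), Occ t qv N)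
    (bound : ℕ → ℕ → ℕ)
    (core : ∀ (t n : ℕ) (qv : Fin t → Nat.Primes), Good t n qv → ∀ M : ℕ, M ∣ N → Occ t qv M →
      (∀ M', M' ∣ M → M' ≠ M → ¬ Occ t qv M') → bound t M ≤ n →
      ∀ q : ℕ, q.Prime → q ≠ 2 → q ∣ M → False)
    (small : ∀ (t : ℕ) (qv : Fin t → Nat.Primes), ¬ Occ t qv 1 ∧ ¬ Occ t qv 2) : False := by
  obtain ⟨t, ht⟩ := hTW
  obtain ⟨qv, hqv⟩ := ht (∑ M ∈ N.divisors, bound t M)
  obtain ⟨M, hMN, hM, hmin⟩ := choice_exists_minimal_dvd (Occ t qv) (hocc t qv)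
  have hN0 : N ≠ 0 := hN.ne_zero
  have hb : bound t M ≤ ∑ M ∈ N.divisors, bound t M :=
    Finset.single_le_sum (f := fun M => bound t M) (fun _ _ => Nat.zero_le _)
      (Nat.mem_divisors.2 ⟨hMN, hN0⟩)
  have hodd : ∀ q : ℕ, q.Prime → q ∣ M → q = 2 := by
    intro q hq hqM
    by_contra hq2
    exact core t _ qv hqv M hMN hM hmin hb q hq hq2 hqM
  rcases choice_eq_one_or_two (hN.squarefree_of_dvd hMN) hodd with rfl | rfl
  · exact (small t qv).1 hM
  · exact (small t qv).2 hM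

end Fermat.Agent.RIB
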