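import Fermat.Agent.RR.Modular

/-!
# RIB / Wrap : the end leaf of the descent at rigid levels : `J₀(4) = J₀(8) = 0`

`X₀(4)` and `X₀(8)` have genus `0` (`RR.gR_FN` = S24 + Riemann-Roch, `genusFormula 4 = genusFormula 8 = 0`), and on a function field
of Riemann genus `0` every divisor of degree `0` is principal (Riemann's inequality).

* `isPrincipal_of_gR_eq_zero`        : abstract statement;
* `jzero_eq_zero_of_genusFormula`    : `genusFormula N = 0 → ∀ x : JZero N, x = 0`;
* `jzero_four`, `jzero_eight`.
-/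

set_option autoImplicit false
set_option synthInstance.maxHeartbeats 400000

open AlgebraicCurve ModularCurve

namespace Fermat.Agent.RIB

open Fermat.Agent.S24 Fermat.Agent.RED

theorem ls_dedekindPsi_four : dedekindPsi 4 = 6 := by decide +kernel
theorem ls_dedekindPsi_eight : dedekindPsi 8 = 12 := by decide +kernel
theorem ls_cuspCount_four : cuspCount 4 = 3 := by decide +kernel
theorem ls_cuspCount_eight : cuspCount 8 = 4 := by decide +kernel
theorem ls_nuTwo_four : nuTwo 4 = 0 := by
  rw [nuTwo, Nat.card_eq_fintype_card]; decide +kernel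
theorem ls_nuTwo_eight : nuTwo 8 = 0 := by
  rw [nuTwo, Nat.card_eq_fintype_card]; decide +kernel
theorem ls_nuThree_four : nuThree 4 = 0 := by
  rw [nuThree, Nat.card_eq_fintype_card]; decide +kernel
theorem ls_nuThree_eight : nuThree 8 = 0 := by
  rw [nuThree, Nat.card_eq_fintype_card]; decide +kernel

theorem genusFormula_four : genusFormula 4 = 0 := by
  rw [genusFormula, ls_dedekindPsi_four, ls_cuspCount_four, ls_nuTwo_four, ls_nuThree_four]; norm_num
theorem genusFormula_eight : genusFormula 8 = 0 := by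
  rw [genusFormula, ls_dedekindPsi_eight, ls_cuspCount_eight, ls_nuTwo_eight, ls_nuThree_eight]; norm_num

/-- genus zero: every divisor of degree zero is principal. -/
theorem isPrincipal_of_gR_eq_zero {K F : Type*} [Field K] [Field F] [Algebra K F] [IsAlgClosed K]
    {x : F} (hx : IsSepParam K x) (hg : gR K F = 0) {D : Divisor K F}
    (hD : Divisor.degree D = 0) : Divisor.IsPrincipal D := by
  obtain ⟨f, hf, hf0⟩ := hx.exists_ne_zero_mem_L (A := D) (by rw [hg, hD])
  rw [mem_L_iff_of_ne_zero hf0] at hf
  have h0 : 0 ≤ D + dv K f := fun v => by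
    rw [Finsupp.add_apply, hx.dv_apply, add_comm]; exact hf v
  have h1 : D + dv K f = 0 :=
    hx.eq_zero_of_degree_eq_zero h0 (by rw [map_add, hD, hx.degree_dv, add_zero])
  refine ⟨f⁻¹, inv_ne_zero hf0, fun v => ?_⟩
  have h2 := DFunLike.congr_fun h1 v
  rw [Finsupp.add_apply, hx.dv_apply, Finsupp.zero_apply] at h2
  rw [v.ord_inv]
  linarith

theorem jzero_eq_zero_of_genusFormula (N : ℕ) [NeZero N] (hN : genusFormula N = 0) (x : JZero N) :
    x = 0 := by
  obtain ⟨D, rfl⟩ := Pic0.mk_surjective x
  rw [Pic0.mk, QuotientAddGroup.eq_zero_iff, AddSubgroup.mem_addSubgroupOf]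
  change Divisor.IsPrincipal (D : Divisor Kb (FN N))
  have hg : gR Kb (FN N) = 0 := by
    have := RR.gR_FN N
    rw [hN] at this
    exact_mod_cast this
  exact isPrincipal_of_gR_eq_zero (RR.isSepParam_jF N) hg (Divisor.mem_degZero.mp D.2)

/-- `J₀(4) = 0`. -/
theorem jzero_four (x : JZero 4) : x = 0 := jzero_eq_zero_of_genusFormula 4 genusFormula_four x

/-- `J₀(8) = 0`. -/
theorem jzero_eight (x : JZero 8) : x = 0 := jzero_eq_zero_of_genusFormula 8 genusFormula_eight x

end Fermat.Agent.RIB
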