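import Fermat.Agent.SS.Desc
import Fermat.Agent.MAZ.Geo.Heq
import Fermat.Agent.S40.Eigen
import Fermat.Agent.RIB.Theta

/-!
# RIB / WRAP : `[UP4]` the entry of the rigid-level design (`W'(L) := W(L * 4)`, board #2065)

* `Bstar_mem_eigA`, `exists_ne_zero_mem_eigA_mul_four` : the eigen-subgroup `S40.eigA N p S a` embeds in
  `S40.eigA (N * 4) p S a` by `B^*`.
* `eigA_le_thetaPart`, `Bstar_mem_thetaPart`.
* `exists_ne_zero_mem_thetaPart_mul_four` : **the forward wrapper** : `W.IsResiduallyModularOfLevel p N` gives a non zero class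
  killed by `p` in `thetaPart (N * 4) p S (apW W)`, for EVERY set `S` containing `badS W p (N * 4)`.

(`[LVL48]`, i.e. `J₀(4) = J₀(8) = 0`, is in `RIB/Wrap/LevelSmall.lean`.)
-/

set_option autoImplicit false

noncomputable section

open AlgebraicCurve ModularCurve CongruenceSubgroup

namespace Fermat.Agent.RIB

open Fermat.Agent.RED Fermat.Agent.SS

/-- **[UP4]** `B^*` maps the eigen-subgroup of level `N` to the eigen-subgroup of level `N * c`. -/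
theorem Bstar_mem_eigA (N c : ℕ) [NeZero N] [NeZero c] {p : ℕ} {S : Set ℕ} {a : ℕ → ℤ}
    (hS : ∀ ℓ : ℕ, ℓ.Prime → ℓ ∣ N * c → ℓ ∈ S) {y : JZero N} (hy : y ∈ S40.eigA N p S a) :
    Bstar N c (heckeInputsAlong' N c) y ∈ S40.eigA (N * c) p S a := by
  refine ⟨?_, fun ℓ hℓ => ?_⟩
  · rw [← map_nsmul, hy.1, map_zero]
  · rw [← MAZ.Bstar_heckeOperatorBar N c _ ℓ (fun hd => hℓ (hS ℓ ℓ.2 hd)) y, hy.2 ℓ hℓ, map_zsmul]

/-- **[UP4]** the eigen-subgroup of the rigid level `N * 4` is non zero if that of level `N` is. -/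
theorem exists_ne_zero_mem_eigA_mul_four (N : ℕ) [NeZero N] {p : ℕ} (hp : p ≠ 0) {S : Set ℕ}
    {a : ℕ → ℤ} (hS : ∀ ℓ : ℕ, ℓ.Prime → ℓ ∣ N * 4 → ℓ ∈ S)
    (h : ∃ y ∈ S40.eigA N p S a, y ≠ 0) : ∃ y ∈ S40.eigA (N * 4) p S a, y ≠ 0 := by
  obtain ⟨y, hy, hy0⟩ := h
  refine ⟨_, Bstar_mem_eigA N 4 hS hy, fun h0 => hy0 ?_⟩
  exact eq_zero_of_Bstar_eq_zero N 4 (Or.inl rfl) hp y ⟨1, by rw [pow_one]; exact hy.1⟩ h0

/-- eigenvectors are generalised eigenvectors. -/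
theorem eigA_le_thetaPart (N p : ℕ) [NeZero N] (S : Set ℕ) (a : ℕ → ℤ) :
    S40.eigA N p S a ≤ thetaPart N p S a := by
  intro y hy
  refine ⟨⟨1, by rw [pow_one]; exact hy.1⟩, fun r hr => ⟨1, ?_⟩⟩
  rw [pow_one, hk_apply, hy.2 r hr, sub_self]

/-- `B^*` respects the `θ`-parts. -/
theorem Bstar_mem_thetaPart (N c : ℕ) [NeZero N] [NeZero c] {p : ℕ} {S : Set ℕ} {a : ℕ → ℤ}
    (hS : ∀ ℓ : ℕ, ℓ.Prime → ℓ ∣ N * c → ℓ ∈ S) {y : JZero N} (hy : y ∈ thetaPart N p S a) :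
    Bstar N c (heckeInputsAlong' N c) y ∈ thetaPart (N * c) p S a :=
  map_mem_thetaPart (Bstar N c (heckeInputsAlong' N c))
    (fun r hr x _ => MAZ.Bstar_heckeOperatorBar N c _ r (fun hd => hr (hS r r.2 hd)) x) hy

/-- the eigen-subgroup only grows with `S`. -/
theorem eigA_mono (N p : ℕ) [NeZero N] {S S' : Set ℕ} (h : S ⊆ S') (a : ℕ → ℤ) :
    S40.eigA N p S a ≤ S40.eigA N p S' a :=
  fun _ hy => ⟨hy.1, fun ℓ hℓ => hy.2 ℓ fun h' => hℓ (h h')⟩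

/-- **the forward wrapper of RIB** : residual modularity of level `N` gives a non zero class killed by `p` in the `θ`-part of
the rigid level `N * 4`, whatever the set `S ⊇ badS W p (N * 4)` of excluded primes is. -/
theorem exists_ne_zero_mem_thetaPart_mul_four (W : WeierstrassCurve ℤ) (hΔ : W.Δ ≠ 0) {p N : ℕ}
    [NeZero N] (hp : p.Prime) (hmod : W.IsResiduallyModularOfLevel p N) (S : Set ℕ)
    (hS : (↑(S40.badS W p (N * 4)) : Set ℕ) ⊆ S) :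
    ∃ x ∈ thetaPart (N * 4) p S (S40.apW W), p • x = 0 ∧ x ≠ 0 := by
  have hN4 : N * 4 ≠ 0 := mul_ne_zero (NeZero.ne N) (by norm_num)
  obtain ⟨f, 𝔪, hf, hmax, hpm, hcong⟩ := hmod
  have hgood : ∀ ℓ : ℕ, ℓ.Prime → ℓ ∉ (↑(S40.badS W p (N * 4)) : Set ℕ) →
      W.IsGoodPrimeFor ℓ ∧ ¬ ℓ ∣ N * 4 ∧ ℓ ≠ p := fun ℓ hℓ h =>
    (S40.notMem_badS_iff hΔ hN4 hℓ).1 fun h' => h (Finset.mem_coe.2 h')
  have h0 := S40.exists_ne_zero_mem_eigA (S := (↑(S40.badS W p (N * 4)) : Set ℕ))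
    (a := S40.apW W) hp f 𝔪 hf hmax hpm
    (fun ℓ hℓ hℓS hd => (hgood ℓ hℓ hℓS).2.1 (hd.mul_right 4))
    (fun ℓ hℓ hℓS => hcong ℓ hℓ (hgood ℓ hℓ hℓS).1
      (fun hd => (hgood ℓ hℓ hℓS).2.1 (hd.mul_right 4)) (hgood ℓ hℓ hℓS).2.2)
  obtain ⟨y, hy, hy0⟩ := exists_ne_zero_mem_eigA_mul_four N hp.ne_zero
    (fun ℓ hℓ hd => by
      by_contra hcon
      exact (hgood ℓ hℓ hcon).2.1 hd) h0
  exact ⟨y, eigA_le_thetaPart _ _ _ _ (eigA_mono _ _ hS _ hy), hy.1, hy0⟩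

end Fermat.Agent.RIB
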