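import Fermat.Agent.RIB.Main.Mid
import Fermat.Agent.RIB.Main.GenOut
import Fermat.Agent.TW.ESide.CtxW
import Fermat.Agent.RIB.Wrap.Choice
import Fermat.Agent.RIB.Wrap.Lvl48
import Fermat.Agent.RIB.Wrap.LevelSmall
import Fermat.Prelude.Def_FreyPackage_IsConductorLevel

/-!
# RIB / Wrap / Final : block B3 : `P.ModularRepOfLevel N`, `N` a conductor level prime to `p`, `E[p]` irreducible  ⟹  `False`

The order of choices of board #2094 (`choice_false`): the integral model `W` given by `hmod`, `θ = a_r(W)`, the normal form `D` of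
`E[p]`, `k = 𝔽_{p²}`, `T = badS W p (N * 4)`, `t`, `n`, the Taylor-Wiles primes `qv` (`exists_tw_gen_flat_sub`), `S = cutS T qv`, and
ONLY THEN `M ∣ N` minimal with `W_S(M * 4) ≠ 0`.   `mid` (helper44) excludes the odd primes of `M`, `J₀(4) = J₀(8) = 0` (helper43)
excludes `M = 1, 2`; `W_S(N * 4) ≠ 0` is helper2's forward wrapper.
-/

set_option autoImplicit false

noncomputable section

open ExtCitation Polynomial AlgebraicCurve ModularCurve

namespace Fermat.Agent.RIB

open Fermat.Agent.S56 Fermat.Agent.S56.Gen Fermat.Agent.TW.ESide Fermat.Agent.S13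

/-- the body of `exists_tw_gen_flat_sub` after `∃ qv,`. -/
def TWOut {k : Type} [Field k] (p : ℕ) [Fact p.Prime] (h2 : (2 : k) ≠ 0)
    (rbar : GQ →* M2 k) (S₀ : Finset Nat.Primes) (t n : ℕ) (T : Finset ℕ)
    (qv : Fin t → Nat.Primes) : Prop :=
  Function.Injective qv ∧
    (∀ i, ((qv i : Nat.Primes) : ℕ) ∉ T ∧ qv i ∉ S₀ ∧ p ^ (n + 1) ∣ ((qv i : Nat.Primes) : ℕ) - 1 ∧
      ∃ φ : GQ, (primeLocalPlace (qv i)).IsFrobeniusAt φ ((qv i : Nat.Primes) : ℕ) ∧
        ∃ α β : k, α ≠ β ∧ (rbar φ).charpoly = (X - C α) * (X - C β)) ∧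
    TWGen p h2 rbar S₀ t qv

/-- the coefficient field `𝔽_{p²}` of (GEN). -/
abbrev kF (P : FreyPackage) : Type := GaloisField P.p 2

theorem card_kF (P : FreyPackage) : Nat.card (kF P) = P.p ^ 2 := GaloisField.card P.p 2 two_ne_zero

theorem natCast_ne_zero_kF (P : FreyPackage) {m : ℕ} (h0 : 0 < m) (h5 : m < 5) :
    ((m : ℕ) : kF P) ≠ 0 := by
  intro h3
  rw [CharP.cast_eq_zero_iff (kF P) P.p] at h3
  have := Nat.le_of_dvd h0 h3
  have := P.hp5
  omega

theorem two_ne_zero_kF (P : FreyPackage) : (2 : kF P) ≠ 0 := by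
  exact_mod_cast natCast_ne_zero_kF P (m := 2) (by norm_num) (by norm_num)

theorem three_ne_zero_kF (P : FreyPackage) : (3 : kF P) ≠ 0 := by
  exact_mod_cast natCast_ne_zero_kF P (m := 3) (by norm_num) (by norm_num)

theorem final_mem_toP {T : Finset ℕ} {q : Nat.Primes} : q ∈ toP T ↔ (q : ℕ) ∈ T :=
  Finset.mem_subtype

theorem final_freyCurve_Δ_ne_zero (P : FreyPackage) : P.freyCurve.Δ ≠ 0 := by
  have hΔ : P.freyCurve.Δ
      = ((P.a : ℚ) ^ P.p * (P.b : ℚ) ^ P.p * ((P.a : ℚ) ^ P.p + (P.b : ℚ) ^ P.p)) ^ 2 / 256 := by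
    simp only [WeierstrassCurve.Δ, WeierstrassCurve.b₂, WeierstrassCurve.b₄, WeierstrassCurve.b₆,
      WeierstrassCurve.b₈, FreyPackage.freyCurve]
    field_simp
    ring
  have hc : (P.a : ℚ) ^ P.p + (P.b : ℚ) ^ P.p = (P.c : ℚ) ^ P.p := by
    exact_mod_cast congrArg (Int.cast : ℤ → ℚ) P.hFLT
  rw [hΔ, hc]
  have ha : (P.a : ℚ) ≠ 0 := by exact_mod_cast P.ha0
  have hb : (P.b : ℚ) ≠ 0 := by exact_mod_cast P.hb0
  have hc' : (P.c : ℚ) ≠ 0 := by exact_mod_cast P.hc0
  positivity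

theorem final_model_Δ_ne_zero (P : FreyPackage) {W : WeierstrassCurve ℤ}
    (hW : W.IsIntegralModelOf P.freyCurve) : W.Δ ≠ 0 := by
  obtain ⟨C, hC⟩ := hW
  intro h0
  have h1 : (W.map (Int.castRingHom ℚ)).Δ = 0 := by
    rw [WeierstrassCurve.map_Δ, h0, map_zero]
  rw [← hC, WeierstrassCurve.variableChange_Δ] at h1
  rcases mul_eq_zero.1 h1 with h | h
  · exact (pow_ne_zero 12 (Units.ne_zero _)) h
  · exact final_freyCurve_Δ_ne_zero P h

/-- `X² - a X + 1 = (X - α)(X - β)`, `a² = 4` ⟹ `α = β`. -/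
theorem final_disc_aux {K : Type*} [Field K] {a α β : K}
    (h : (X ^ 2 - C a * X + C 1 : K[X]) = (X - C α) * (X - C β)) (ha : a ^ 2 - 4 = 0) : α = β := by
  have e : ((X : K[X]) - C α) * (X - C β) = X ^ 2 - C (α + β) * X + C (α * β) := by
    rw [C_add, C_mul]; ring
  rw [e] at h
  have c1 : a = α + β := by
    have := congrArg (fun f => f.coeff 1) h
    simp only [coeff_add, coeff_sub, coeff_X_pow, coeff_C_mul, coeff_X_one, coeff_C] at this
    have h' : -a = -β + -α := by simpa using this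
    linear_combination -h'
  have c0 : 1 = α * β := by
    have := congrArg (fun f => f.coeff 0) h
    simp only [coeff_add, coeff_sub, coeff_X_pow, coeff_C_mul, coeff_X_zero, coeff_C] at this
    simpa using this
  have h4 : (α - β) ^ 2 = 0 := by
    rw [c1] at ha
    linear_combination ha + 4 * c0
  exact sub_eq_zero.1 ((pow_eq_zero_iff two_ne_zero).1 h4)

/-- `J₀(4) = J₀(8) = 0`. -/
theorem final_WS_eq_bot {L : ℕ} [NeZero L] (h : L = 4 ∨ L = 8) (p : ℕ) (S : Set ℕ) (θ : ℕ → ℤ) :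
    WS L p S θ = ⊥ := by
  rcases h with rfl | rfl
  · exact (AddSubgroup.eq_bot_iff_forall _).2 fun x _ => jzero_four x
  · exact (AddSubgroup.eq_bot_iff_forall _).2 fun x _ => jzero_eight x

/-- the bound for `n`, total in `M`. -/
def finalBound (p t M : ℕ) : ℕ := if h : M = 0 then 0 else @nBound p t M ⟨h⟩

theorem finalBound_eq (p t M : ℕ) [NeZero M] : finalBound p t M = nBound p t M :=
  dif_neg (NeZero.ne M)

/-- **(B3)** -/
theorem false_of_modular (P : FreyPackage) {N : ℕ} (hcond : P.IsConductorLevel N)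
    (hpN : ¬ P.p ∣ N)
    (hirr : WeierstrassCurve.Affine.Point.GaloisRepIsIrreducible (K := AlgebraicClosure ℚ) ℚ
      P.freyCurve P.p) (hmod : P.ModularRepOfLevel N) : False := by
  obtain ⟨f, W, 𝔪, hf, hW, hmax, hpm, hcong⟩ := hmod
  have hmodW : W.IsResiduallyModularOfLevel P.p N := ⟨f, 𝔪, hf, hmax, hpm, hcong⟩
  have : NeZero N := ⟨hcond.pos.ne'⟩
  have hΔ : W.Δ ≠ 0 := final_model_Δ_ne_zero P hW
  obtain ⟨D⟩ := exists_normData P hirr
  have hp2 : P.p ≠ 2 := by have := P.hp5; omega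
  have hN4 : N * 4 ≠ 0 := mul_ne_zero (NeZero.ne N) (by norm_num)
  obtain ⟨T, hTdef⟩ : ∃ T, T = S40.badS W P.p (N * 4) := ⟨_, rfl⟩
  have hgoodT : ∀ r : ℕ, r.Prime → r ∉ T → W.IsGoodPrimeFor r ∧ ¬ r ∣ N * 4 ∧ r ≠ P.p := by
    intro r hr h
    rw [hTdef] at h
    exact (S40.notMem_badS_iff hΔ hN4 hr).1 h
  have h2T : 2 ∈ T := by
    by_contra h
    exact (hgoodT 2 Nat.prime_two h).2.1 (Dvd.dvd.mul_left (by norm_num) _)
  have hpT : P.p ∈ T := by
    by_contra h
    exact (hgoodT P.p P.pp h).2.2 rfl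
  have EC : ECtx P.p T (S40.apW W) (rbarN D) :=
    ectx_model hirr D W hW T h2T hpT fun r hr hd => by
      by_contra h
      exact (hgoodT r hr h).1 hd
  have hyp : RbarHyp P.p (freyRbarN D (kF P)) :=
    freyRbarN_hyp D (kF P) hirr (quadSplit_of_card P (kF P) (card_kF P))
  have hur : UnramOutside (freyRbarN D (kF P)) (toP T) :=
    freyRbarN_unram D (kF P) (toP T) fun q hq =>
      ⟨fun h => hq (final_mem_toP.2 (h ▸ h2T)), fun h => hq (final_mem_toP.2 (h ▸ hpT))⟩
  have hpS : pPrime P.p ∈ toP T := final_mem_toP.2 hpT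
  refine choice_false hcond.squarefree
    (fun t n qv => TWOut P.p (two_ne_zero_kF P) (freyRbarN D (kF P)) (toP T) t n T qv)
    ?_
    (fun t qv M => ∀ [NeZero M], WS (M * 4) P.p (↑(cutS T qv) : Set ℕ) (S40.apW W) ≠ ⊥)
    ?_ (finalBound P.p) ?_ ?_
  · -- the Taylor-Wiles primes
    obtain ⟨t, ht⟩ := exists_tw_gen_flat_sub hp2 (two_ne_zero_kF P) hyp (toP T) hpS hur
    exact ⟨t, fun n => ht n T⟩
  · -- level `N` occurs
    intro t qv _
    obtain ⟨x, hx, hpx, hx0⟩ := exists_ne_zero_mem_thetaPart_mul_four W hΔ P.pp hmodW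
      (↑(cutS T qv) : Set ℕ) (by
        rw [← hTdef]
        exact Finset.coe_subset.2 (subset_cutS T qv))
    intro hbot
    have hmem : x ∈ WS (N * 4) P.p (↑(cutS T qv) : Set ℕ) (S40.apW W) := ⟨hx, hpx⟩
    rw [hbot, AddSubgroup.mem_bot] at hmem
    exact hx0 hmem
  · -- the core
    intro t n qv hG M hMN hOcc hmin hb q hq hq2 hqM
    have : NeZero M := ⟨fun h => hcond.pos.ne' (by
      rw [h] at hMN
      exact Nat.eq_zero_of_zero_dvd hMN)⟩
    have hM0 : M ≠ 0 := NeZero.ne M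
    have hpM4 : ¬ P.p ∣ M * 4 := by
      intro hd
      rcases (Nat.Prime.dvd_mul P.pp).1 hd with hd | hd
      · exact hpN (hd.trans hMN)
      · have := Nat.le_of_dvd (by norm_num) hd
        have := P.hp5
        omega
    have TC : TWCtx P.p T (S40.apW W) (M * 4) t n qv :=
      { inj := hG.1
        notT := fun i => (hG.2.1 i).1
        pow := fun i => (hG.2.1 i).2.2.1
        disc := fun i => by
          obtain ⟨φ, hφ, α, β, hαβ, hchar⟩ := (hG.2.1 i).2.2.2
          have hA : (primeLocalPlace (qv i)).LiesOverPrime ((qv i : Nat.Primes) : ℕ) :=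
            liesOverPrime_primeLocalPlace (qv i)
          obtain ⟨h1, h2⟩ := EC.frob _ (qv i).2 (hG.2.1 i).1 _ hA φ hφ
          have hdet : (rbarN D φ).det = 1 := by
            rw [h2]
            have hd : P.p ∣ ((qv i : Nat.Primes) : ℕ) - 1 :=
              (dvd_pow_self P.p (Nat.succ_ne_zero n)).trans (hG.2.1 i).2.2.1
            have h1le : 1 ≤ ((qv i : Nat.Primes) : ℕ) := (qv i).2.one_lt.le
            have h0 : ((((qv i : Nat.Primes) : ℕ) - 1 : ℕ) : ZMod P.p) = 0 :=
              (ZMod.natCast_eq_zero_iff _ _).2 hd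
            rw [Nat.cast_sub h1le, Nat.cast_one, sub_eq_zero] at h0
            exact h0
          rw [freyRbarN_charpoly, hdet, map_one, tbar, ← rbarN_trace D, h1] at hchar
          refine ((Nat.prime_iff_prime_int.1 P.pp).coprime_iff_not_dvd).2 fun hd => ?_
          have h0 : (((S40.apW W ((qv i : Nat.Primes) : ℕ) ^ 2 - 4 : ℤ) : ℤ) : ZMod P.p) = 0 :=
            (ZMod.intCast_zmod_eq_zero_iff_dvd _ _).2 hd
          refine hαβ (final_disc_aux hchar ?_)
          have h3 := congrArg (castK P (kF P)) h0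
          rw [map_zero, Int.cast_sub, Int.cast_pow, map_sub, map_pow] at h3
          rw [← h3]
          congr 1
          have h4 : (((4 : ℤ) : ℤ) : ZMod P.p) = ((4 : ℕ) : ZMod P.p) := by norm_num
          rw [h4, map_natCast]
          norm_num
        lev := fun r hr hd => by
          by_contra h
          obtain ⟨-, h1, h2⟩ := hgoodT r hr h
          rcases (Nat.Prime.dvd_mul hr).1 hd with hd | hd
          · exact h1 (hd.trans (Nat.mul_dvd_mul_right hMN 4))
          · exact h2 ((Nat.prime_dvd_prime_iff_eq hr P.pp).1 hd)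
        rigid := Dvd.intro_left _ rfl
        hpL := hpM4 }
    have hpL : ¬ P.p ∣ lvl (M * 4) (extP qv) t := by
      intro hd
      rcases dvd_lvl_cases t P.pp hd with h | ⟨j, hj⟩
      · exact hpM4 h
      · exact TC.notT j (hj ▸ hpT)
    have hgen : GenOut (lvl (M * 4) (extP qv) t) P.p (↑(cutS T qv) : Set ℕ) (S40.apW W) (rbarN D) t
        (oddP M) := by
      refine gen_out (k := kF P) hp2 (two_ne_zero_kF P) (three_ne_zero_kF P) hpL
        (rbar := freyRbarN D (kF P)) (fun g => ?_)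
        (freyRbarN_ram_two D (kF P) _ (liesOverPrime_primeLocalPlace twoP))
        (fun σ hσ => freyRbarN_charpoly_inertia_two D (kF P) _
          (liesOverPrime_primeLocalPlace twoP) hσ)
        (toP T) (oddP M) qv ?_ ?_ ?_ ?_ hG.2.2
      · rw [freyRbarN_apply]
        rw [RingHom.ext_zmod (castK P (kF P)) (algebraMap (ZMod P.p) (kF P))]
      · intro v hv hd
        have h1 := TC.mem_cutS t v.2 hd
        rw [cutS, Finset.mem_union, Finset.mem_image] at h1
        rcases h1 with h1 | ⟨i, -, hi⟩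
        · exact hv (Finset.mem_union_left _ (final_mem_toP.2 h1))
        · exact hv (Finset.mem_union_right _
            (Finset.mem_image.2 ⟨i, Finset.mem_univ i, Subtype.ext hi⟩))
      · intro v hv hvR hvp hv2 hd
        have hv2' : (v : ℕ) ≠ 2 := fun h => hv2 (Subtype.ext h)
        rcases dvd_lvl_cases t v.2 hd with h | ⟨j, hj⟩
        · rcases (Nat.Prime.dvd_mul v.2).1 h with h | h
          · exact hvR ((mem_oddP hM0).2 ⟨h, hv2'⟩)
          · have h5 : (v : ℕ) ∣ 2 ^ 2 := by norm_num; exact h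
            exact hv2' ((Nat.prime_dvd_prime_iff_eq v.2 Nat.prime_two).1
              (v.2.dvd_of_dvd_pow h5))
        · exact TC.notT j (hj ▸ final_mem_toP.1 hv)
      · intro v hv
        refine final_mem_toP.2 (TC.lev _ v.2 ?_)
        exact Dvd.dvd.mul_right (Dvd.dvd.mul_right ((mem_oddP hM0).1 hv).1 4) P.p
      · intro h
        exact hpN (((mem_oddP hM0).1 h).1.trans hMN)
    refine mid EC TC (hcond.squarefree.squarefree_of_dvd hMN) hOcc ?_ hgen
      (by rw [← finalBound_eq]; exact hb) hq hq2 hqM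
    intro M' _ hd hne
    by_contra h
    exact hmin M' hd hne (fun {_} => h)
  · -- the small levels
    intro t qv
    exact ⟨fun h => h (final_WS_eq_bot (Or.inl rfl) _ _ _),
      fun h => h (final_WS_eq_bot (Or.inr rfl) _ _ _)⟩

end Fermat.Agent.RIB
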