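import Fermat.Agent.S13.LadderTors

/-!
# RIB / WRAP / [RAM2], part 1: a torsion point reducing to the node

`W` a Weierstrass curve over an algebraically closed valued field `K`, with `b₂` integral and `b₄, b₆, b₈` in the maximal ideal
(i.e. `(0,0)` is a singular point of the reduction).  If `v (2 j + 1) = 1` there is a point `Q ≠ 0` with `(2 j + 1) • Q = 0` and
`v (x(Q)) < 1`.

PROOF.  `S13.torsPoly b₂ b₄ b₆ b₈ j` has leading coefficient `-(2 j + 1)` (a unit) and its roots are exactly the `x`-coordinates of the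
nonzero `(2 j + 1)`-torsion points.  Its constant coefficient is `X_{j+1} Z_j - X_j Z_{j+1}` of the `x`-only ladder started at `x = 0`;
modulo the maximal ideal all `X_n`, `n ≥ 1`, of this ladder vanish (`lad_node`).  So the product of the roots is a non-unit.
-/

set_option autoImplicit false

namespace Fermat.Agent.RIB

open Polynomial Fermat.Agent.S13 Fermat.Agent.S05

section Lad

variable {R : Type*} [CommRing R]

/-- the ladder of a nodal cubic started at the node stays at the node. -/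
lemma lad_node (κ : R) (n : ℕ) (hn : 1 ≤ n) :
    (lad (⟨κ, 0, 0, 0, 0⟩ : LadPar R) n).1.1 = 0 ∧ (lad (⟨κ, 0, 0, 0, 0⟩ : LadPar R) n).2.1 = 0 := by
  refine ladder_induction_pos (motive := fun n =>
    (lad (⟨κ, 0, 0, 0, 0⟩ : LadPar R) n).1.1 = 0 ∧ (lad (⟨κ, 0, 0, 0, 0⟩ : LadPar R) n).2.1 = 0)
    ?_ ?_ ?_ n hn
  · rw [lad_one]; simp [dbl]
  · intro n _ ih
    rw [lad_two_mul]
    simp [dbl, dadd, ih.1, ih.2]
  · intro n _ ih
    rw [lad_two_mul_add_one]
    simp [dbl, dadd, ih.1, ih.2]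

lemma torsPoly_eval (b2 b4 b6 b8 x : R) (n : ℕ) :
    (torsPoly b2 b4 b6 b8 n).eval x =
      (lad (⟨b2, b4, b6, b8, x⟩ : LadPar R) n).2.1 * (lad (⟨b2, b4, b6, b8, x⟩ : LadPar R) n).1.2
        - (lad (⟨b2, b4, b6, b8, x⟩ : LadPar R) n).1.1
          * (lad (⟨b2, b4, b6, b8, x⟩ : LadPar R) n).2.2 := by
  rw [← polyPar_map_eval, lad_map]
  simp [torsPoly]

lemma torsPoly_node_eval_zero (κ : R) (n : ℕ) (hn : 1 ≤ n) :
    (torsPoly κ 0 0 0 n).eval 0 = 0 := by
  rw [torsPoly_eval, (lad_node κ n hn).1, (lad_node κ n hn).2]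
  ring

end Lad

section Val

variable {K : Type*} [Field K] (A : ValuationSubring K)

lemma val_torsPoly_eval_zero {b2 b4 b6 b8 : K} (h2 : A.valuation b2 ≤ 1) (h4 : A.valuation b4 < 1)
    (h6 : A.valuation b6 < 1) (h8 : A.valuation b8 < 1) (n : ℕ) (hn : 1 ≤ n) :
    A.valuation ((torsPoly b2 b4 b6 b8 n).eval 0) < 1 := by
  have m2 : b2 ∈ A := (A.valuation_le_one_iff _).1 h2
  have m4 : b4 ∈ A := (A.valuation_le_one_iff _).1 h4.le
  have m6 : b6 ∈ A := (A.valuation_le_one_iff _).1 h6.le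
  have m8 : b8 ∈ A := (A.valuation_le_one_iff _).1 h8.le
  have r4 : IsLocalRing.residue A ⟨b4, m4⟩ = 0 := by
    rw [IsLocalRing.residue_eq_zero_iff, A.valuation_lt_one_iff]; exact h4
  have r6 : IsLocalRing.residue A ⟨b6, m6⟩ = 0 := by
    rw [IsLocalRing.residue_eq_zero_iff, A.valuation_lt_one_iff]; exact h6
  have r8 : IsLocalRing.residue A ⟨b8, m8⟩ = 0 := by
    rw [IsLocalRing.residue_eq_zero_iff, A.valuation_lt_one_iff]; exact h8
  have e1 : torsPoly b2 b4 b6 b8 n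
      = (torsPoly (⟨b2, m2⟩ : A) ⟨b4, m4⟩ ⟨b6, m6⟩ ⟨b8, m8⟩ n).map A.subtype := by
    rw [torsPoly_map]; rfl
  have e2 : IsLocalRing.residue A ((torsPoly (⟨b2, m2⟩ : A) ⟨b4, m4⟩ ⟨b6, m6⟩ ⟨b8, m8⟩ n).eval 0)
      = 0 := by
    rw [← eval_zero_map, torsPoly_map, r4, r6, r8]
    exact torsPoly_node_eval_zero _ n hn
  rw [IsLocalRing.residue_eq_zero_iff, A.valuation_lt_one_iff] at e2
  rw [e1, eval_zero_map]
  exact e2

end Val

section Root

variable {K : Type*} [Field K] [IsAlgClosed K] {Γ₀ : Type*} [LinearOrderedCommGroupWithZero Γ₀]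

/-- a polynomial with unit leading coefficient and non-unit constant coefficient has a non-unit
root. -/
lemma exists_root_val_lt_one (v : Valuation K Γ₀) (f : K[X]) (hlead : v f.leadingCoeff = 1)
    (h0 : v (f.eval 0) < 1) : ∃ x, f.eval x = 0 ∧ v x < 1 := by
  by_contra hcon
  push Not at hcon
  have hf0 : f ≠ 0 := by
    rintro rfl
    simp at hlead
  have e := (IsAlgClosed.splits f).eval_eq_prod_roots 0
  rw [e, map_mul, hlead, one_mul, map_multiset_prod, Multiset.map_map] at h0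
  have : (1 : Γ₀) ≤ (Multiset.map (⇑v ∘ fun x => 0 - x) f.roots).prod := by
    apply Multiset.one_le_prod_of_one_le
    intro y hy
    obtain ⟨x, hx, rfl⟩ := Multiset.mem_map.1 hy
    simp only [Function.comp, zero_sub, Valuation.map_neg]
    exact hcon x ((mem_roots hf0).1 hx)
  exact absurd h0 (not_lt.2 this)

end Root

section Pt

variable {K : Type*} [Field K] [IsAlgClosed K] [DecidableEq K] (A : ValuationSubring K)
  {W : WeierstrassCurve.Affine K}

/-- **a torsion point reducing to the node.** -/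
theorem exists_torsion_val_lt_one (hΔ : W.Δ ≠ 0) (h2 : A.valuation W.b₂ ≤ 1)
    (h4 : A.valuation W.b₄ < 1) (h6 : A.valuation W.b₆ < 1) (h8 : A.valuation W.b₈ < 1)
    (j : ℕ) (hj : 1 ≤ j) (hv : A.valuation (2 * (j : K) + 1) = 1) :
    ∃ Q : W.Point, Q ≠ 0 ∧ (2 * j + 1) • Q = 0 ∧ A.valuation (xc Q) < 1 := by
  have hchar : (2 * (j : K) + 1) ≠ 0 := by
    intro h; rw [h, map_zero] at hv; exact zero_ne_one hv
  have hlead : (torsPoly W.b₂ W.b₄ W.b₆ W.b₈ j).leadingCoeff = -(2 * (j : K) + 1) := by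
    rw [leadingCoeff, natDegree_torsPoly j hj hchar]
    exact (DL_torsPoly W.b₂ W.b₄ W.b₆ W.b₈ j hj).2
  obtain ⟨x, hx, hvx⟩ := exists_root_val_lt_one A.valuation (torsPoly W.b₂ W.b₄ W.b₆ W.b₈ j)
    (by rw [hlead, Valuation.map_neg, hv]) (val_torsPoly_eval_zero A h2 h4 h6 h8 j hj)
  obtain ⟨Q, hQ, rfl⟩ := exists_point_of_x hΔ x
  exact ⟨Q, hQ, (odd_nsmul_eq_zero_iff hQ j).2 hx, hvx⟩

end Pt

end Fermat.Agent.RIB
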