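import Fermat.Agent.RIB.Wrap.Ram2Lad
import Fermat.Agent.S13.WPD
import Fermat.Agent.S13.WPE
import Fermat.Agent.MAZ.Val.Dich
import Fermat.Agent.S36.K0

/-!
# RIB / WRAP / [RAM2]: the mod `p` representation of the Frey curve is ramified at `2`

`exists_transvection_two` : for every place `A` of `Qbar` above `2` there is `σ` in the inertia group of `A` acting on `E[p]`
as a NON-TRIVIAL transvection: `σ x ≠ x` for some `x`, and `σ (σ x - x) = σ x - x` for all `x` (more generally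
`τ (σ x - x) = σ x - x` for all `τ` in inertia: `S13.wpD`).

PROOF.  The Prelude Frey curve is `y² + xy = x³ + a₂ x² + a₄ x`, `a₂ ∈ ℤ`, `a₄ = - a^p b^p / 16`, `0 < ord₂ a₄ = p ord₂ b - 4`.
1. (`exists_torsion_val_lt_one`, Ram2Lad.lean) there is `Q ∈ E[p] ∖ 0` with `v (x(Q)) < 1`.
2. (`MAZ.Val.nonunit_all`) all multiples `jQ ≠ 0` have `v (x(jQ)) < 1`.
3. (`node_val`, copy of case I of `S13.no_rat_torsion`, `S13.mult_val_gen`) for the multiple `Q'` with `v x` maximal: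
   `v (x(Q'))^p = v(a₄)²`.
4. If inertia fixes `Q'`, `x(Q')` is fixed by inertia, so `v (x(Q')) = v(2)^n` (`S36.exists_zpow_of_inertia_fixed`: the fixed field of
   inertia is unramified), so `p n = 2 (p ord₂ b - 4)`, `p ∣ 8`: absurd.
-/

set_option autoImplicit false

namespace Fermat.Agent.RIB

open Fermat.Agent.S13 Fermat.Agent.S05
open WeierstrassCurve WeierstrassCurve.Affine WeierstrassCurve.Affine.Point

section Node

variable {K : Type*} [Field K] [CharZero K] [DecidableEq K] (A : ValuationSubring K)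
  {W : WeierstrassCurve.Affine K}

/-- valuation of the `x`-coordinate of a `p`-torsion point all of whose multiples reduce to the node
(place above `2`). -/
theorem node_val (h2A : A.valuation ((2 : ℕ) : K) < 1) {p : ℕ} (hp : p.Prime) (hp5 : 5 ≤ p)
    (ha₁ : W.a₁ = 1) (ha₂ : W.a₂ ∈ A) (ha₃ : W.a₃ = 0) (ha₄ : W.a₄ ≠ 0)
    (ha₆ : W.a₆ = 0)
    {P : W.Point} (hP : P ≠ 0) (hpP : p • P = 0)
    (hlt : ∀ j : ℤ, ¬ (p : ℤ) ∣ j → A.valuation (xc (j • P)) < 1) :
    ∃ j0 : ℤ, xc (j0 • P) ≠ 0 ∧ A.valuation (xc (j0 • P)) ^ p = A.valuation W.a₄ ^ 2 := by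
  have hp2 : p ≠ 2 := by omega
  have n2 : (2 : K) ≠ 0 := two_ne_zero
  have h2 : A.valuation (2 : K) < 1 := by simpa using h2A
  have h4 : A.valuation (4 : K) < 1 := by
    have : (4 : K) = 2 * 2 := by norm_num
    rw [this, map_mul]
    exact mul_lt_one_of_lt_of_le₀ h2 h2.le
  obtain ⟨c, hc⟩ : ∃ c, c = W.a₄ := ⟨_, rfl⟩
  obtain ⟨b', hb⟩ : ∃ b', b' = W.b₂ := ⟨_, rfl⟩
  rw [← hc] at ha₄ ⊢
  have H : ShiftData W 0 c b' := by
    refine ⟨?_, ?_, ?_, n2⟩
    · simp only [WeierstrassCurve.b₆, ha₃, ha₆]; ring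
    · simp only [WeierstrassCurve.b₄, ha₃, hc]; ring
    · rw [hb]; ring
  have hb' : A.valuation b' = 1 := by
    have e : b' = 1 + 4 * W.a₂ := by
      rw [hb]; simp only [WeierstrassCurve.b₂, ha₁]; ring
    rw [e, Valuation.map_add_eq_of_lt_left, map_one]
    rw [map_one, map_mul]
    exact mul_lt_one_of_lt_of_le₀ h4 ((A.valuation_le_one_iff _).2 ha₂)
  have hz := zsmul_eq_zero_iff_dvd hp hP hpP
  have hpj : ∀ j : ℤ, p • (j • P) = 0 := fun j => by rw [smul_comm, hpP, smul_zero]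
  have hpi : Prime (p : ℤ) := Nat.prime_iff_prime_int.1 hp
  have hsmall : ∀ m : ℤ, 0 < m → m < 5 → ¬ (p : ℤ) ∣ m := by
    intro m h0 h5 h
    have := Int.le_of_dvd h0 h
    omega
  have hknd : ∀ m : ℤ, 0 < m → m < 5 → ∀ j : ℤ, ¬ (p : ℤ) ∣ j → ¬ (p : ℤ) ∣ m * j := by
    intro m h0 h5 j hj h
    rcases hpi.dvd_or_dvd h with h | h
    · exact hsmall m h0 h5 h
    · exact hj h
  have h2nd : ∀ j : ℤ, ¬ (p : ℤ) ∣ j → ¬ (p : ℤ) ∣ 2 * j := hknd 2 (by norm_num) (by norm_num)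
  obtain ⟨j0, hj0, hmax⟩ := Finset.exists_max_image (Finset.Icc 1 (p - 1))
    (fun j : ℕ => A.valuation (xc (j • P))) ⟨1, by simp; omega⟩
  rw [Finset.mem_Icc] at hj0
  have hj0nd : ¬ (p : ℤ) ∣ (j0 : ℤ) := by
    intro h
    have := Nat.le_of_dvd (by omega) (Int.natCast_dvd_natCast.1 h)
    omega
  obtain ⟨P', hP'⟩ : ∃ P', P' = (j0 : ℤ) • P := ⟨_, rfl⟩
  have hP'0 : P' ≠ 0 := by rw [hP']; exact fun h => hj0nd ((hz _).1 h)
  have hpP' : p • P' = 0 := by rw [hP']; exact hpj _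
  have hz' := zsmul_eq_zero_iff_dvd hp hP'0 hpP'
  have hmulnd : ∀ j : ℤ, ¬ (p : ℤ) ∣ j → ¬ (p : ℤ) ∣ j * j0 := by
    intro j hj h
    rcases hpi.dvd_or_dvd h with h | h
    · exact hj h
    · exact hj0nd h
  have hsm : ∀ j : ℤ, j • P' = (j * j0) • P := fun j => by rw [hP', mul_smul]
  have hne0 : ∀ j : ℤ, ¬ (p : ℤ) ∣ j → j • P' ≠ 0 := fun j hj h => hj ((hz' j).1 h)
  have heta : ∀ j : ℤ, ¬ (p : ℤ) ∣ j →
      2 * yc (j • P') + W.a₁ * xc (j • P') + W.a₃ ≠ 0 := by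
    intro j hj h
    have h1 := (add_self_eq_zero_iff (hne0 j hj)).2 h
    rw [← two_zsmul, smul_smul] at h1
    exact h2nd j hj ((hz' _).1 h1)
  have hprod : ∀ j : ℤ, ¬ (p : ℤ) ∣ j →
      (xc (j • P')) * (4 * (xc (j • P')) ^ 2 + b' * (xc (j • P')) + 4 * c) ≠ 0 := by
    intro j hj
    have := H.eta_sq (hne0 j hj)
    simp only [sub_zero] at this
    rw [← this]
    exact pow_ne_zero 2 (heta j hj)
  have hxne : ∀ i j : ℤ, ¬ (p : ℤ) ∣ i → ¬ (p : ℤ) ∣ j → ¬ (p : ℤ) ∣ i + j → ¬ (p : ℤ) ∣ i - j →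
      xc (i • P') ≠ xc (j • P') := by
    intro i j hi hj hij hij'
    apply xc_ne_of_add_sub_ne_zero (hne0 i hi) (hne0 j hj)
    · rw [← add_smul]; exact hne0 _ hij
    · rw [← sub_smul]; exact hne0 _ hij'
  have key := mult_val_gen A.valuation p hp hp2 (fun j => xc (j • P')) c b' ha₄ hb' h2.le n2
    (fun j hj => left_ne_zero_of_mul (hprod j hj))
    (fun j hj => by
      rw [hsm]; exact hlt _ (hmulnd j hj))
    (fun i j hij => by
      have : i • P' = -(j • P') := by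
        rw [eq_neg_iff_add_eq_zero, ← add_smul]; exact (hz' _).2 hij
      rw [this, xc_neg])
    (fun j hj => by
      obtain ⟨m, hm1, hm2, hm⟩ := exists_nat_rep hp hpP (j * j0) (hmulnd j hj)
      rw [hsm, hm, one_smul, hP', natCast_zsmul]
      exact hmax m (by rw [Finset.mem_Icc]; exact ⟨hm1, hm2⟩))
    (fun i j hi hj hij hij' => hxne i j hi hj hij hij')
    (fun i j hi hj hij hij' => by
      rw [add_smul, sub_smul]
      have := H.prod (hne0 i hi) (hne0 j hj) (hxne i j hi hj hij hij')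
      simpa only [sub_zero] using this)
    (fun j hj => right_ne_zero_of_mul (hprod j hj))
    (fun j hj => by
      have h1 : (2 * j) • P' = j • P' + j • P' := by rw [two_mul, add_smul]
      rw [h1]
      have := H.dbl (hne0 j hj) (by rw [← h1]; exact hne0 _ (h2nd j hj))
      simpa only [sub_zero] using this)
  simp only [one_smul] at key
  have h1nd : ¬ (p : ℤ) ∣ 1 := hsmall 1 (by norm_num) (by norm_num)
  have hx0 : xc P' ≠ 0 := by
    have := left_ne_zero_of_mul (hprod 1 h1nd)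
    rwa [one_smul] at this
  exact ⟨j0, by rw [← hP']; exact hx0, by rw [← hP']; exact key⟩

/-- existence of a `p`-torsion point with `v (x)^p = v(a₄)²`. -/
theorem exists_node_val [IsAlgClosed K] (h2A : A.valuation ((2 : ℕ) : K) < 1) {p : ℕ}
    (hp : p.Prime) (hp5 : 5 ≤ p)
    (ha₁ : W.a₁ = 1) (ha₂ : W.a₂ ∈ A) (ha₃ : W.a₃ = 0) (ha₄ : W.a₄ ≠ 0)
    (hv4 : A.valuation W.a₄ < 1) (ha₆ : W.a₆ = 0) :
    ∃ Q : W.Point, p • Q = 0 ∧ xc Q ≠ 0 ∧ A.valuation (xc Q) ^ p = A.valuation W.a₄ ^ 2 := by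
  have hp2 : p ≠ 2 := by omega
  have D : PrimeData A p 2 := ⟨hp, hp2, Nat.prime_two, hp2, h2A⟩
  have I : IntData A W :=
    ⟨by rw [ha₁]; exact A.one_mem, ha₂, by rw [ha₃]; exact A.zero_mem,
      (A.valuation_le_one_iff _).1 hv4.le, by rw [ha₆]; exact A.zero_mem⟩
  have n2 : (2 : K) ≠ 0 := two_ne_zero
  have h2 : A.valuation (2 : K) < 1 := by simpa using h2A
  have h4 : A.valuation (4 : K) < 1 := by
    have : (4 : K) = 2 * 2 := by norm_num
    rw [this, map_mul]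
    exact mul_lt_one_of_lt_of_le₀ h2 h2.le
  have H : ShiftData W 0 W.a₄ W.b₂ := by
    refine ⟨?_, ?_, ?_, n2⟩
    · simp only [WeierstrassCurve.b₆, ha₃, ha₆]; ring
    · simp only [WeierstrassCurve.b₄, ha₃]; ring
    · ring
  have hb' : A.valuation W.b₂ = 1 := by
    have e : W.b₂ = 1 + 4 * W.a₂ := by
      simp only [WeierstrassCurve.b₂, ha₁]; ring
    rw [e, Valuation.map_add_eq_of_lt_left, map_one]
    rw [map_one, map_mul]
    exact mul_lt_one_of_lt_of_le₀ h4 ((A.valuation_le_one_iff _).2 ha₂)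
  have hΔ : W.Δ ≠ 0 := MAZ.Val.disc_ne_zero A.valuation H hb' hv4 ha₄
  obtain ⟨j, rfl⟩ : ∃ j, p = 2 * j + 1 := by
    rcases hp.eq_two_or_odd' with h | h
    · exact absurd h hp2
    · exact h
  have hvp : A.valuation (2 * (j : K) + 1) = 1 := by
    have := valuation_natCast_eq_one A Nat.prime_two h2A (n := 2 * j + 1) (by omega)
    simpa using this
  have e4 : W.b₄ = 2 * W.a₄ := by simp only [WeierstrassCurve.b₄, ha₃]; ring
  have e6 : W.b₆ = 0 := by simp only [WeierstrassCurve.b₆, ha₃, ha₆]; ring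
  have e8 : W.b₈ = -W.a₄ ^ 2 := by simp only [WeierstrassCurve.b₈, ha₃, ha₆]; ring
  obtain ⟨Q, hQ0, hpQ, hvQ⟩ := exists_torsion_val_lt_one A hΔ hb'.le
    (by rw [e4, map_mul]; exact mul_lt_one_of_lt_of_le₀ h2 hv4.le)
    (by rw [e6, _root_.map_zero]; exact zero_lt_one)
    (by rw [e8, Valuation.map_neg, map_pow]; exact pow_lt_one₀ zero_le hv4 two_ne_zero)
    j (by omega) hvp
  have hord : addOrderOf Q = 2 * j + 1 := by
    have : Fact (2 * j + 1).Prime := ⟨hp⟩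
    exact addOrderOf_eq_prime hpQ hQ0
  have hz := zsmul_eq_zero_iff_dvd hp hQ0 hpQ
  have hlt0 := MAZ.Val.nonunit_all A.valuation H (by simp) hb' hv4 hp hp2 Q hord
    (fun k hk => tors_x I D (by
        intro h
        apply hk
        have := (hz (k : ℤ)).1 (by rw [natCast_zsmul]; exact h)
        exact_mod_cast this)
      (by rw [smul_comm, hpQ, smul_zero]))
    (by simpa using hvQ)
  have hlt : ∀ i : ℤ, ¬ ((2 * j + 1 : ℕ) : ℤ) ∣ i → A.valuation (xc (i • Q)) < 1 := by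
    intro i hi
    obtain ⟨m, hm1, hm2, hm⟩ := exists_nat_rep hp hpQ i hi
    rw [hm]
    have := hlt0 m (Nat.not_dvd_of_pos_of_lt (by omega) (by omega))
    simpa using this
  obtain ⟨j0, h1, h3⟩ := node_val A h2A hp hp5 ha₁ ha₂ ha₃ ha₄ ha₆ hQ0 hpQ hlt
  exact ⟨j0 • Q, by rw [smul_comm, hpQ, smul_zero], h1, h3⟩

end Node

/-- **[RAM2]** inertia at `2` acts non-trivially on the `p`-torsion of the Frey curve. -/
theorem exists_inertia_two_ne (P : FreyPackage) (A : ValuationSubring Kb)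
    (hA : A.LiesOverPrime 2) :
    ∃ σ ∈ A.inertiaSubgroupIn ℚ, ∃ x : Tors P, σ • x ≠ x := by
  by_contra hcon
  push Not at hcon
  have h2A : A.valuation ((2 : ℕ) : Kb) < 1 := hA
  have h2 : A.valuation (2 : Kb) < 1 := by simpa using h2A
  have hv20 : A.valuation (2 : Kb) ≠ 0 := (A.valuation.ne_zero_iff).2 two_ne_zero
  obtain ⟨m4, hm4⟩ := frey_32_dvd P
  have ea₄ : (EK P).a₄ = -((P.a : Kb) ^ P.p) * ((P.b : Kb) ^ P.p) / 16 := by
    simp [FreyPackage.freyCurve]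
  have hva : A.valuation (P.a : Kb) = 1 :=
    valuation_intCast_eq_one A Nat.prime_two h2A (frey_a_odd P)
  have h16 : A.valuation (16 : Kb) = A.valuation (2 : Kb) ^ 4 := by
    rw [← map_pow]; norm_num
  have hv4 : A.valuation (EK P).a₄ = A.valuation (P.b : Kb) ^ P.p / A.valuation (2 : Kb) ^ 4 := by
    rw [ea₄, map_div₀, map_mul, Valuation.map_neg, map_pow, map_pow, hva, one_pow, one_mul, h16]
  have hv4lt : A.valuation (EK P).a₄ < 1 := by
    have h1 : (P.b : Kb) ^ P.p = 32 * (m4 : Kb) := by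
      exact_mod_cast congrArg (Int.cast : ℤ → Kb) hm4
    have h3 : (EK P).a₄ = 2 * ((-(P.a ^ P.p * m4) : ℤ) : Kb) := by
      rw [ea₄, h1]; push_cast; ring
    rw [h3, map_mul]
    exact mul_lt_one_of_lt_of_le₀ h2 (valuation_intCast_le_one A _)
  obtain ⟨Q, hpQ, hx0, hval⟩ := exists_node_val A h2A P.pp P.hp5 (W := EK P) (EKD_a₁ P)
    (EK_intData P A).h₂ (EKD_a₃ P) (EKD_a₄_ne_zero P) hv4lt (EKD_a₆ P)
  have hQmem : Q ∈ Submodule.torsionBy ℤ (EK P).Point P.p := by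
    rw [Submodule.mem_torsionBy_iff, natCast_zsmul]; exact hpQ
  have hfix : ∀ σ ∈ A.inertiaSubgroupIn ℚ, σ (xc Q) = xc Q := by
    intro σ hσ
    have h1 : σ • Q = Q := congrArg Subtype.val (hcon σ hσ ⟨Q, hQmem⟩)
    have h4 : ∀ Q : (EK P).Point, xc (σ • Q) = σ (xc Q) := by
      intro Q
      cases Q with
      | zero => exact (_root_.map_zero σ).symm
      | some x y h => rfl
    rw [← h4, h1]
  obtain ⟨k, hk⟩ := S36.exists_zpow_of_inertia_fixed Nat.prime_two hA hx0 hfix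
  obtain ⟨l, hl⟩ := val_rat_eq_zpow A h2A (P.b : ℚ) (by exact_mod_cast P.hb0)
  rw [Rat.cast_intCast] at hl
  have hk' : A.valuation (xc Q) = A.valuation (2 : Kb) ^ k := by simpa using hk
  rw [hv4, hk', hl, ← zpow_natCast, ← zpow_natCast, ← zpow_natCast, ← zpow_natCast, ← zpow_mul,
    ← zpow_mul, ← zpow_sub₀ hv20, ← zpow_mul] at hval
  have hinj := zpow_right_injective₀ (zero_lt_iff.2 hv20) h2.ne hval
  have hdvd : (P.p : ℤ) ∣ 8 := ⟨2 * l - k, by push_cast at hinj; linarith⟩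
  have hdvd' : P.p ∣ 2 ^ 3 := by exact_mod_cast hdvd
  have := Nat.le_of_dvd (by norm_num) (P.pp.dvd_of_dvd_pow hdvd')
  have := P.hp5
  omega

/-- **[RAM2]** a non-trivial transvection in the image of inertia at `2`. -/
theorem exists_transvection_two (P : FreyPackage) (A : ValuationSubring Kb)
    (hA : A.LiesOverPrime 2) :
    ∃ σ ∈ A.inertiaSubgroupIn ℚ, (∃ x : Tors P, σ • x ≠ x) ∧
      (∀ x : Tors P, σ • (σ • x - x) = σ • x - x) := by
  obtain ⟨σ, hσ, hx⟩ := exists_inertia_two_ne P A hA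
  exact ⟨σ, hσ, hx, fun x => wpD P A hA σ σ hσ hσ x⟩

end Fermat.Agent.RIB
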