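import Fermat.Statements.S43
import Fermat.Agent.RIB.Wrap.Final
import Fermat.Agent.S44

/-!
# S43 : candidate for `Fermat/Agent/S43.lean`

`s43` has the exact frozen statement; it becomes `Fermat.Agent.S43.result` (copy into `Fermat/Agent/S43.lean`) as soon as the closure is
sorry-free.   `p ∣ N` : first lower the level at `p` (S44).   Then `RIB.false_of_modular` : the hypotheses are contradictory.
-/

set_option autoImplicit false
open WeierstrassCurve WeierstrassCurve.Affine WeierstrassCurve.Affine.Point
open CuspForm ModularFormClass UpperHalfPlane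
open FreyPackage

namespace Fermat.Agent.RIB

theorem s43 (P : FreyPackage) {N q : ℕ} (hcond : P.IsConductorLevel N) (hq : q.Prime) (hq2 : q ≠ 2) (hqp : q ≠ P.p) (hqN : q ∣ N) (hirr : GaloisRepIsIrreducible (K := AlgebraicClosure ℚ) ℚ P.freyCurve P.p) (hmod : P.ModularRepOfLevel N) (hunr : P.GaloisRepUnramifiedAt q) : ∃ M : ℕ, M ∣ N ∧ ¬ q ∣ M ∧ P.ModularRepOfLevel M := by
  by_cases hpN : P.p ∣ N
  · obtain ⟨M, hMN, hpM, hmodM⟩ := Fermat.Agent.S44.result P hcond hpN hirr hmod
    exact (false_of_modular P (hcond.of_dvd hMN (Nat.pos_of_dvd_of_pos hMN hcond.pos)) hpM hirr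
      hmodM).elim
  · exact (false_of_modular P hcond hpN hirr hmod).elim

end Fermat.Agent.RIB
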